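/-
S14, Route A, analytic provider of the second inequality (helper20): the abstract index bound.

If the primes whose class lies in a subgroup `N'` of the class group (containing all `p`-th
powers) carry at least `1/p` of the prime sum, while for every nontrivial character `ψ` of
exponent `p` the primes with `ψ = 1` carry at most `1/p` of it, then `N'` has index at most `p`:
every class is `c ^ k * n` with `n ∈ N'`, for any `c ∉ N'`.
-/
import Mathlib
import Fermat.Agent.S14.Thaine.Density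

set_option autoImplicit false

open scoped NumberField nonZeroDivisors
open IsDedekindDomain Filter Topology

noncomputable section

namespace Fermat.Agent.S14.Artin.SIAn

open Fermat.Agent.S14.Thaine.Density

/-- A character of a finite abelian group separating an element from a subgroup. -/
theorem exists_char_of_notMem {G : Type*} [CommGroup G] [Finite G] (H : Subgroup G) {g : G}
    (hg : g ∉ H) : ∃ ψ : G →* ℂˣ, (∀ h ∈ H, ψ h = 1) ∧ ψ g ≠ 1 := by
  have hne : (QuotientGroup.mk g : G ⧸ H) ≠ 1 := by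
    rwa [Ne, QuotientGroup.eq_one_iff]
  obtain ⟨φ, hφ⟩ := CommGroup.exists_apply_ne_one_of_hasEnoughRootsOfUnity (G ⧸ H) ℂ hne
  refine ⟨φ.comp (QuotientGroup.mk' H), fun h hh => ?_, hφ⟩
  show φ (QuotientGroup.mk h) = 1
  rw [(QuotientGroup.eq_one_iff h).mpr hh, map_one]

/-- Two `p`-th roots of unity in `ℂˣ`, the second one nontrivial: the first is the inverse of a
power of the second. -/
theorem exists_mul_pow_eq_one {p : ℕ} (hp : p.Prime) (a b : ℂˣ) (ha : a ^ p = 1) (hb : b ^ p = 1)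
    (hb1 : b ≠ 1) : ∃ i < p, a * b ^ i = 1 := by
  have : NeZero p := ⟨hp.ne_zero⟩
  have hord : orderOf b = p := by
    have h1 : orderOf b ∣ p := orderOf_dvd_of_pow_eq_one hb
    rcases (Nat.dvd_prime hp).mp h1 with h | h
    · exact absurd (orderOf_eq_one_iff.mp h) hb1
    · exact h
  have hprim : IsPrimitiveRoot b p := by
    have := IsPrimitiveRoot.orderOf b
    rwa [hord] at this
  have hprim' : IsPrimitiveRoot (b : ℂ) p := hprim.map_of_injective Units.coeHom_injective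
  have ha' : ((a⁻¹ : ℂˣ) : ℂ) ^ p = 1 := by
    rw [← Units.val_pow_eq_pow_val, inv_pow, ha, inv_one, Units.val_one]
  obtain ⟨i, hi, hbi⟩ := hprim'.eq_pow_of_pow_eq_one ha'
  refine ⟨i, hi, ?_⟩
  have : b ^ i = a⁻¹ := by
    apply Units.ext
    rw [Units.val_pow_eq_pow_val]
    exact hbi
  rw [this, mul_inv_cancel]

/-- The counting inequality: if every point of `T` lies in at least one of the sets `A j`
(`j ≤ n`) and every point of `T₂ ⊆ T` lies in all of them, then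
`∑_T w + n ∑_{T₂} w ≤ ∑_j ∑_{T ∩ A j} w`. -/
theorem sum_add_mul_sum_le {P : Type*} (n : ℕ) (A : ℕ → Set P) (w : P → ℝ)
    (hw : ∀ Q, 0 ≤ w Q) (T T₂ : Finset P) (hT₂ : T₂ ⊆ T)
    (hcover : ∀ Q ∈ T, ∃ j ∈ Finset.range (n + 1), Q ∈ A j)
    (hall : ∀ Q ∈ T₂, ∀ j ∈ Finset.range (n + 1), Q ∈ A j) :
    ∑ Q ∈ T, w Q + (n : ℝ) * ∑ Q ∈ T₂, w Q ≤
      ∑ j ∈ Finset.range (n + 1), ∑ Q ∈ T, (A j).indicator w Q := by
  classical
  have h2 : ∑ Q ∈ T₂, w Q = ∑ Q ∈ T, if Q ∈ T₂ then w Q else 0 := by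
    rw [← Finset.sum_filter]
    congr 1
    ext Q
    simp only [Finset.mem_filter]
    exact ⟨fun h => ⟨hT₂ h, h⟩, fun h => h.2⟩
  rw [Finset.sum_comm, h2, Finset.mul_sum, ← Finset.sum_add_distrib]
  refine Finset.sum_le_sum (fun Q hQ => ?_)
  have hnn : ∀ j, 0 ≤ (A j).indicator w Q := fun j => Set.indicator_nonneg (fun Q _ => hw Q) Q
  by_cases hQ2 : Q ∈ T₂
  · rw [if_pos hQ2]
    have : ∑ j ∈ Finset.range (n + 1), (A j).indicator w Q =
        ∑ _j ∈ Finset.range (n + 1), w Q :=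
      Finset.sum_congr rfl (fun j hj => Set.indicator_of_mem (hall Q hQ2 j hj) w)
    rw [this, Finset.sum_const, Finset.card_range, nsmul_eq_mul]
    push_cast
    ring_nf
    exact le_refl _
  · rw [if_neg hQ2, mul_zero, add_zero]
    obtain ⟨j, hj, hQj⟩ := hcover Q hQ
    calc w Q = (A j).indicator w Q := (Set.indicator_of_mem hQj w).symm
      _ ≤ ∑ j ∈ Finset.range (n + 1), (A j).indicator w Q :=
        Finset.single_le_sum (f := fun j => (A j).indicator w Q) (fun i _ => hnn i) hj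

/-- **Abstract index bound.**  `N'` a subgroup of the class group containing all `p`-th powers.
If every nontrivial character of exponent `p` has kernel primes of density at most `1/p`, the
prime sum of `F` reaches `log (1/(s-1)) - O(1)` and the primes with class in `N'` reach
`(1/p) log (1/(s-1)) - O(1)`, then every class is `c ^ k * n`, `n ∈ N'`, for any `c ∉ N'`. -/
theorem exists_pow_mul_mem_of_sums (F : Type) [Field F] [NumberField F] (p : ℕ) (hp : p.Prime)
    (N' : Subgroup (ClassGroup (𝓞 F))) (hpow : ∀ d : ClassGroup (𝓞 F), d ^ p ∈ N')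
    (hKer : ∀ ψ : ClassGroup (𝓞 F) →* ℂˣ, ψ ≠ 1 → (∀ c, ψ c ^ p = 1) →
      KernelSumUpper F p {Q | ψ (primeClass F Q) = 1})
    (hF : PrimeSumLower F)
    (hSplit : ∃ C : ℝ, ∀ s ∈ Set.Ioc (1 : ℝ) 2, ∃ T : Finset (HeightOneSpectrum (𝓞 F)),
      (∀ Q ∈ T, primeClass F Q ∈ N') ∧
      Real.log (1 / (s - 1)) - C ≤ (p : ℝ) * ∑ Q ∈ T, (Ideal.absNorm Q.asIdeal : ℝ) ^ (-s))
    (c : ClassGroup (𝓞 F)) (hc : c ∉ N') (d : ClassGroup (𝓞 F)) :
    ∃ k : ℕ, ∃ n ∈ N', d = c ^ k * n := by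
  classical
  by_contra hcon
  have hd : d ∉ Subgroup.zpowers c ⊔ N' := by
    intro h
    obtain ⟨y, hy, z, hz, rfl⟩ := Subgroup.mem_sup.mp h
    obtain ⟨k, rfl⟩ := (Submonoid.mem_powers_iff _ _).1 (mem_powers_iff_mem_zpowers.2 hy)
    exact hcon ⟨k, z, hz, rfl⟩
  obtain ⟨ψ₁, hψ₁N, hψ₁c⟩ := exists_char_of_notMem N' hc
  obtain ⟨ψ₂, hψ₂H, hψ₂d⟩ := exists_char_of_notMem (Subgroup.zpowers c ⊔ N') hd
  have hψ₂N : ∀ h ∈ N', ψ₂ h = 1 := fun h hh => hψ₂H h (Subgroup.mem_sup_right hh)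
  have hψ₂c : ψ₂ c = 1 := hψ₂H c (Subgroup.mem_sup_left (Subgroup.mem_zpowers c))
  have hp1 : ∀ x, ψ₁ x ^ p = 1 := fun x => by rw [← map_pow]; exact hψ₁N _ (hpow x)
  have hp2 : ∀ x, ψ₂ x ^ p = 1 := fun x => by rw [← map_pow]; exact hψ₂N _ (hpow x)
  -- the `p + 1` characters
  set χ : ℕ → (ClassGroup (𝓞 F) →* ℂˣ) := fun j => if j < p then ψ₁ * ψ₂ ^ j else ψ₂ with hχ
  have hχlt : ∀ j, j < p → χ j = ψ₁ * ψ₂ ^ j := fun j hj => by simp only [hχ, if_pos hj]
  have hχge : ∀ j, ¬ j < p → χ j = ψ₂ := fun j hj => by simp only [hχ, if_neg hj]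
  have hχne : ∀ j, χ j ≠ 1 := by
    intro j h
    by_cases hj : j < p
    · rw [hχlt j hj] at h
      have := congrArg (fun f : ClassGroup (𝓞 F) →* ℂˣ => f c) h
      simp only [MonoidHom.mul_apply, MonoidHom.pow_apply, hψ₂c, one_pow, mul_one,
        MonoidHom.one_apply] at this
      exact hψ₁c this
    · rw [hχge j hj] at h
      have := congrArg (fun f : ClassGroup (𝓞 F) →* ℂˣ => f d) h
      exact hψ₂d this
  have hχp : ∀ j x, χ j x ^ p = 1 := by
    intro j x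
    by_cases hj : j < p
    · rw [hχlt j hj, MonoidHom.mul_apply, MonoidHom.pow_apply, mul_pow, hp1, one_mul,
        pow_right_comm, hp2, one_pow]
    · rw [hχge j hj]; exact hp2 x
  have hχN : ∀ j, ∀ h ∈ N', χ j h = 1 := by
    intro j h hh
    by_cases hj : j < p
    · rw [hχlt j hj, MonoidHom.mul_apply, MonoidHom.pow_apply, hψ₁N h hh, hψ₂N h hh, one_pow,
        mul_one]
    · rw [hχge j hj]; exact hψ₂N h hh
  have hU : ∀ j, KernelSumUpper F p {Q | χ j (primeClass F Q) = 1} :=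
    fun j => hKer _ (hχne j) (hχp j)
  choose CU hCU using hU
  obtain ⟨C1, hC1⟩ := hF
  obtain ⟨C2, hC2⟩ := hSplit
  set B : ℝ := (p : ℝ) * (C1 + C2) + ∑ j ∈ Finset.range (p + 1), CU j with hB
  have hbig := tendsto_log_one_div_sub_one.eventually_gt_atTop (max 0 B)
  have hmem : Set.Ioc (1 : ℝ) 2 ∈ 𝓝[>] (1 : ℝ) := Ioc_mem_nhdsGT (by norm_num)
  obtain ⟨s, hs, hsL⟩ :=
    ((Filter.eventually_of_mem hmem (fun s (hs : s ∈ Set.Ioc (1 : ℝ) 2) => hs)).and hbig).exists
  set L := Real.log (1 / (s - 1)) with hL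
  have hL0 : 0 < L := lt_of_le_of_lt (le_max_left _ _) hsL
  have hLB : B < L := lt_of_le_of_lt (le_max_right _ _) hsL
  obtain ⟨T₁, hT₁⟩ := hC1 s hs
  obtain ⟨T₂, hT₂N, hT₂⟩ := hC2 s hs
  set w : HeightOneSpectrum (𝓞 F) → ℝ := fun Q => (Ideal.absNorm Q.asIdeal : ℝ) ^ (-s) with hw
  have hw0 : ∀ Q, 0 ≤ w Q := fun Q => rpow_neg_nonneg Q s
  set T := T₁ ∪ T₂ with hT
  have hsumT : L - C1 ≤ ∑ Q ∈ T, w Q :=
    hT₁.trans (Finset.sum_le_sum_of_subset_of_nonneg Finset.subset_union_left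
      (fun Q _ _ => hw0 Q))
  have hcount := sum_add_mul_sum_le p (fun j => {Q | χ j (primeClass F Q) = 1}) w hw0 T T₂
    Finset.subset_union_right
    (fun Q _ => by
      by_cases hb : ψ₂ (primeClass F Q) = 1
      · refine ⟨p, Finset.mem_range.mpr (Nat.lt_succ_self p), ?_⟩
        show χ p (primeClass F Q) = 1
        rw [hχge p (lt_irrefl p)]; exact hb
      · obtain ⟨i, hi, hab⟩ := exists_mul_pow_eq_one hp (ψ₁ (primeClass F Q))
          (ψ₂ (primeClass F Q)) (hp1 _) (hp2 _) hb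
        refine ⟨i, Finset.mem_range.mpr (Nat.lt_succ_of_lt hi), ?_⟩
        show χ i (primeClass F Q) = 1
        rw [hχlt i hi, MonoidHom.mul_apply, MonoidHom.pow_apply]; exact hab)
    (fun Q hQ j _ => hχN j _ (hT₂N Q hQ))
  have hupper : (p : ℝ) * ∑ j ∈ Finset.range (p + 1),
      ∑ Q ∈ T, ({Q | χ j (primeClass F Q) = 1} : Set _).indicator w Q ≤
      ((p : ℝ) + 1) * L + ∑ j ∈ Finset.range (p + 1), CU j := by
    rw [Finset.mul_sum]
    calc ∑ j ∈ Finset.range (p + 1),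
          (p : ℝ) * ∑ Q ∈ T, ({Q | χ j (primeClass F Q) = 1} : Set _).indicator w Q
        ≤ ∑ j ∈ Finset.range (p + 1), (L + CU j) :=
          Finset.sum_le_sum (fun j _ => by
            rw [Finset.sum_indicator_eq_sum_filter]
            exact hCU j s hs _ (fun Q hQ => (Finset.mem_filter.mp hQ).2))
      _ = ((p : ℝ) + 1) * L + ∑ j ∈ Finset.range (p + 1), CU j := by
          rw [Finset.sum_add_distrib, Finset.sum_const, Finset.card_range, nsmul_eq_mul]
          push_cast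
          ring
  have hp0 : (0 : ℝ) < (p : ℝ) := by exact_mod_cast hp.pos
  have hp2' : (2 : ℝ) ≤ (p : ℝ) := by exact_mod_cast hp.two_le
  have hlow : (p : ℝ) * (L - C1) + (p : ℝ) * (L - C2) ≤
      (p : ℝ) * ∑ j ∈ Finset.range (p + 1),
        ∑ Q ∈ T, ({Q | χ j (primeClass F Q) = 1} : Set _).indicator w Q := by
    calc (p : ℝ) * (L - C1) + (p : ℝ) * (L - C2)
        ≤ (p : ℝ) * ∑ Q ∈ T, w Q + (p : ℝ) * ((p : ℝ) * ∑ Q ∈ T₂, w Q) :=
          add_le_add (mul_le_mul_of_nonneg_left hsumT hp0.le)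
            (mul_le_mul_of_nonneg_left hT₂ hp0.le)
      _ = (p : ℝ) * (∑ Q ∈ T, w Q + (p : ℝ) * ∑ Q ∈ T₂, w Q) := by ring
      _ ≤ (p : ℝ) * ∑ j ∈ Finset.range (p + 1),
            ∑ Q ∈ T, ({Q | χ j (primeClass F Q) = 1} : Set _).indicator w Q :=
          mul_le_mul_of_nonneg_left hcount hp0.le
  have hfin := hlow.trans hupper
  have : ((p : ℝ) - 1) * L ≤ B := by
    rw [hB]; linarith
  nlinarith [mul_nonneg (sub_nonneg.mpr (by linarith : (1 : ℝ) ≤ (p : ℝ) - 1)) hL0.le]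

end Fermat.Agent.S14.Artin.SIAn
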