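/-
S14, Route A, analytic provider of the second inequality (helper20): `SIStmt p` from
`ClassZetaStmt`, in hypothesis form over two leaves
(`ResNormInput` = residue norm surjectivity, `SplitLowerInput` = density of the split primes).

Proof.  Let `art 𝔞 = 1`, `𝔞` prime to `r`, and suppose `c := [𝔞] ∉ nmClasses`.
* `N'` := the subgroup generated by the classes of the split primes not above `r` and by the
  `p`-th powers.  The analytic index bound (`Index.lean`) gives: every class is `c ^ k * n`,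
  `n ∈ N'`.
* Every class of `N'` is the class of an ideal prime to `r` with trivial Artin symbol.
* `art` is trivial on every principal ideal `(x)`, `x` prime to `r`: choose `γ` with
  `n := N_{M/F} γ ≡ x` modulo the primes above `r`; then `x * n ^ (p - 1) ≡ n ^ p` is a `p`-th
  power residue, so the cyclotomic hypothesis applies, and `art (n) = 1` since `(n)` is a norm.
* Hence `art` only depends on the class, for ideals prime to `r`; so `art P = 1` for every prime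
  `P` not above `r`, contradicting `NSStmt`.
-/
import Mathlib
import Fermat.Agent.S14.Artin.Basic
import Fermat.Agent.S14.Artin.Norm
import Fermat.Agent.S14.Artin.NSArt
import Fermat.Agent.S14.Artin.SIAn.Index
import Fermat.Agent.S14.Thaine.MiniChebStmt
import Fermat.Agent.Lib.ClassCoprime

set_option autoImplicit false
set_option linter.unusedSectionVars false

open scoped NumberField nonZeroDivisors
open IsDedekindDomain

noncomputable section

namespace Fermat.Agent.S14.Artin.SIAn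

open Fermat.Agent.S14.Artin Fermat.Agent.S14.Artin.Basic Fermat.Agent.S14.Thaine
  Fermat.Agent.S14.Thaine.Density

/-! ### The two leaves, as contracts -/

/-- (L1) residue norm surjectivity at unramified primes. -/
def ResNormInput : Prop :=
  ∀ (F M : Type) [Field F] [Field M] [NumberField F] [NumberField M] [Algebra F M]
    [IsGalois F M], (∀ Q : Ideal (𝓞 M), Q.IsPrime → Q ≠ ⊥ → Q.inertia (M ≃ₐ[F] M) = ⊥) →
    ∀ (S : Finset (Ideal (𝓞 F))), (∀ v ∈ S, v.IsPrime ∧ v ≠ ⊥) →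
    ∀ x : 𝓞 F, (∀ v ∈ S, x ∉ v) →
    ∃ γ : 𝓞 M, ∀ v ∈ S, Algebra.intNorm (𝓞 F) (𝓞 M) γ - x ∈ v

/-- (L2) the split primes outside a finite set carry `1/[M:F]` of the prime sum. -/
def SplitLowerInput : Prop :=
  ∀ (F M : Type) [Field F] [Field M] [NumberField F] [NumberField M] [Algebra F M]
    [IsGalois F M] (T₀ : Set (HeightOneSpectrum (𝓞 F))), T₀.Finite →
    ∃ C : ℝ, ∀ s ∈ Set.Ioc (1 : ℝ) 2, ∃ T : Finset (HeightOneSpectrum (𝓞 F)),
      (∀ Q ∈ T, Q ∉ T₀ ∧ IsSplit F M Q.asIdeal) ∧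
      Real.log (1 / (s - 1)) - C ≤
        (Module.finrank F M : ℝ) * ∑ Q ∈ T, (Ideal.absNorm Q.asIdeal : ℝ) ^ (-s)

/-! ### Kernel sums from `ClassZetaStmt` -/

/-- [ClassZeta] ⇒ for a nontrivial class character `ψ` of exponent `p`, the primes with
`ψ = 1` have density at most `1/p`. -/
theorem kernelSumUpper_of_classZeta (hCZ : ClassZetaStmt) (F : Type) [Field F] [NumberField F]
    {p : ℕ} (hp : p.Prime) (ψ : ClassGroup (𝓞 F) →* ℂˣ) (hψ1 : ψ ≠ 1)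
    (hψp : ∀ c, ψ c ^ p = 1) : KernelSumUpper F p {Q | ψ (primeClass F Q) = 1} := by
  have : Fact p.Prime := ⟨hp⟩
  have h0' : ∃ C : ℝ, ∀ s ∈ Set.Ioc (1 : ℝ) 2,
      ‖classL F (fun c => (((ψ ^ 0) c : ℂˣ) : ℂ)) s‖ ≤ C / (s - 1) := by
    have hfun : (fun c : ClassGroup (𝓞 F) => (((ψ ^ 0) c : ℂˣ) : ℂ)) = fun _ => 1 := by
      funext c
      simp
    rw [hfun]
    exact MiniCheb.zetaPoleInput F
  have hL : ∀ k : ℕ, 0 < k → k < p → ∃ C : ℝ, ∀ s ∈ Set.Ioc (1 : ℝ) 2,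
      ‖classL F (fun c => (((ψ ^ k) c : ℂˣ) : ℂ)) s‖ ≤ C := fun k hk0 hkp =>
    MiniCheb.exists_bound_classL hCZ _
      (MiniCheb.sum_coe_eq_zero (ψ ^ k) (MiniCheb.pow_ne_one_of_lt hp ψ hψ1 hψp hk0 hkp))
  exact kernelSumUpper_of_norm_bounds p hp.pos _
    (fun k s => classL F (fun c => (((ψ ^ k) c : ℂˣ) : ℂ)) s)
    (MiniCheb.eulerProdInput F p ψ hψp) h0' hL

/-! ### Ideals prime to `r` -/

section Cop

variable {F : Type} [Field F] [NumberField F]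

/-- The ideal `I` is prime to the rational integer `r`. -/
def CopR (r : ℕ) (I : Ideal (𝓞 F)) : Prop :=
  ∀ v : Ideal (𝓞 F), v.IsPrime → (r : 𝓞 F) ∈ v → ¬ I ≤ v

theorem copR_one (r : ℕ) : CopR r (1 : Ideal (𝓞 F)) := by
  intro v hv _ hle
  exact hv.ne_top (top_le_iff.mp (Ideal.one_eq_top (R := 𝓞 F) ▸ hle))

theorem CopR.mul {r : ℕ} {I J : Ideal (𝓞 F)} (hI : CopR r I) (hJ : CopR r J) :
    CopR r (I * J) := by
  intro v hv hrv hle
  rcases hv.mul_le.mp hle with h | h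
  · exact hI v hv hrv h
  · exact hJ v hv hrv h

theorem CopR.pow {r : ℕ} {I : Ideal (𝓞 F)} (hI : CopR r I) (k : ℕ) : CopR r (I ^ k) := by
  induction k with
  | zero => rw [pow_zero]; exact copR_one r
  | succ k ih => rw [pow_succ]; exact ih.mul hI

theorem copR_of_prime {r : ℕ} {P : Ideal (𝓞 F)} (hP : P.IsPrime) (hP0 : P ≠ ⊥)
    (hr : (r : 𝓞 F) ∉ P) : CopR r P := by
  intro v hv hrv hle
  have hmax : P.IsMaximal := hP.isMaximal hP0
  have : P = v := hmax.eq_of_le hv.ne_top hle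
  exact hr (this ▸ hrv)

theorem copR_of_sup_eq_top {r : ℕ} {I : Ideal (𝓞 F)} (h : I ⊔ Ideal.span {(r : 𝓞 F)} = ⊤) :
    CopR r I := by
  intro v hv hrv hle
  apply hv.ne_top
  rw [eq_top_iff, ← h]
  exact sup_le hle ((Ideal.span_singleton_le_iff_mem v).mpr hrv)

theorem sup_eq_top_of_copR {r : ℕ} {I : Ideal (𝓞 F)} (h : CopR r I) :
    I ⊔ Ideal.span {(r : 𝓞 F)} = ⊤ := by
  by_contra hne
  obtain ⟨v, hv, hle⟩ := Ideal.exists_le_maximal _ hne
  exact h v hv.isPrime (hle (Ideal.mem_sup_right (Ideal.subset_span rfl)))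
    (le_trans le_sup_left hle)

/-- The principal ideal `(x)`, `x ≠ 0`, as a nonzero ideal. -/
def spanNZ (x : 𝓞 F) (hx : x ≠ 0) : (Ideal (𝓞 F))⁰ :=
  ⟨Ideal.span {x}, mem_nonZeroDivisors_iff_ne_zero.2
    (by simpa [Ideal.span_singleton_eq_bot] using hx)⟩

theorem spanNZ_mul (x y : 𝓞 F) (hx : x ≠ 0) (hy : y ≠ 0) :
    spanNZ (x * y) (mul_ne_zero hx hy) = spanNZ x hx * spanNZ y hy :=
  Subtype.ext (Ideal.span_singleton_mul_span_singleton x y).symm

theorem spanNZ_pow (x : 𝓞 F) (hx : x ≠ 0) (k : ℕ) :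
    spanNZ (x ^ k) (pow_ne_zero k hx) = spanNZ x hx ^ k :=
  Subtype.ext (Ideal.span_singleton_pow x k).symm

/-- There is a prime above every rational prime. -/
theorem exists_prime_natCast_mem' {r : ℕ} (hr : r.Prime) :
    ∃ v : Ideal (𝓞 F), v.IsPrime ∧ (r : 𝓞 F) ∈ v := by
  have hne : Ideal.span {(r : 𝓞 F)} ≠ ⊤ := by
    intro h
    have h1 : IsUnit (r : 𝓞 F) := Ideal.span_singleton_eq_top.mp h
    have h2 : IsUnit ((Algebra.norm ℤ (r : 𝓞 F)) : ℤ) := h1.map (Algebra.norm ℤ)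
    have h3 : (r : 𝓞 F) = algebraMap ℤ (𝓞 F) (r : ℤ) := by simp
    rw [h3, Algebra.norm_algebraMap, Int.isUnit_iff_natAbs_eq, Int.natAbs_pow,
      Int.natAbs_natCast] at h2
    have h4 : r = 1 := by
      have hpos : 0 < Module.finrank ℤ (𝓞 F) := Module.finrank_pos
      exact (Nat.pow_eq_one.mp h2).resolve_right hpos.ne'
    exact hr.one_lt.ne' h4
  obtain ⟨v, hv, hle⟩ := Ideal.exists_le_maximal _ hne
  exact ⟨v, hv.isPrime, hle (Ideal.subset_span rfl)⟩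

/-- Two ideals prime to `r` in the same class differ by principal ideals generated by elements
prime to `r`. -/
theorem exists_coprime_relation {r : ℕ} (𝔟 𝔠 : (Ideal (𝓞 F))⁰)
    (hb : CopR r (𝔟 : Ideal (𝓞 F))) (hc : CopR r (𝔠 : Ideal (𝓞 F)))
    (h : ClassGroup.mk0 𝔟 = ClassGroup.mk0 𝔠) :
    ∃ b c : 𝓞 F, (∀ v : Ideal (𝓞 F), v.IsPrime → (r : 𝓞 F) ∈ v → b ∉ v) ∧
      (∀ v : Ideal (𝓞 F), v.IsPrime → (r : 𝓞 F) ∈ v → c ∉ v) ∧
      Ideal.span {b} * (𝔠 : Ideal (𝓞 F)) = Ideal.span {c} * (𝔟 : Ideal (𝓞 F)) := by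
  obtain ⟨x₀, y₀, hx₀, hy₀, hxy⟩ := ClassGroup.mk0_eq_mk0_iff.1 h
  have htop := sup_eq_top_of_copR hb
  obtain ⟨b, hbmem, t, ht, hbt⟩ := Submodule.mem_sup.mp
    (show (1 : 𝓞 F) ∈ (𝔟 : Ideal (𝓞 F)) ⊔ Ideal.span {(r : 𝓞 F)} from htop ▸ Submodule.mem_top)
  have hbv : ∀ v : Ideal (𝓞 F), v.IsPrime → (r : 𝓞 F) ∈ v → b ∉ v := by
    intro v hv hrv hbv
    apply hv.ne_top
    rw [Ideal.eq_top_iff_one, ← hbt]
    exact v.add_mem hbv ((Ideal.span_singleton_le_iff_mem v).mpr hrv ht)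
  have hmem : x₀ * b ∈ Ideal.span {y₀} * (𝔠 : Ideal (𝓞 F)) := by
    rw [← hxy]
    exact Ideal.mul_mem_mul (Ideal.subset_span rfl) hbmem
  obtain ⟨c, hcmem, hc'⟩ := Ideal.mem_span_singleton_mul.mp hmem
  have hy₀' : Ideal.span {y₀} ≠ (0 : Ideal (𝓞 F)) := by
    rw [Ne, Ideal.zero_eq_bot, Ideal.span_singleton_eq_bot]
    exact hy₀
  have hrel : Ideal.span {b} * (𝔠 : Ideal (𝓞 F)) = Ideal.span {c} * (𝔟 : Ideal (𝓞 F)) := by
    apply mul_left_cancel₀ hy₀'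
    calc Ideal.span {y₀} * (Ideal.span {b} * (𝔠 : Ideal (𝓞 F)))
        = Ideal.span {b} * (Ideal.span {y₀} * (𝔠 : Ideal (𝓞 F))) := by ring
      _ = Ideal.span {b} * (Ideal.span {x₀} * (𝔟 : Ideal (𝓞 F))) := by rw [hxy]
      _ = Ideal.span {x₀ * b} * (𝔟 : Ideal (𝓞 F)) := by
          rw [← mul_assoc, Ideal.span_singleton_mul_span_singleton, mul_comm b x₀]
      _ = Ideal.span {y₀ * c} * (𝔟 : Ideal (𝓞 F)) := by rw [hc']
      _ = Ideal.span {y₀} * (Ideal.span {c} * (𝔟 : Ideal (𝓞 F))) := by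
          rw [← Ideal.span_singleton_mul_span_singleton, mul_assoc]
  refine ⟨b, c, hbv, ?_, hrel⟩
  intro v hv hrv hcv
  have hle : Ideal.span {b} * (𝔠 : Ideal (𝓞 F)) ≤ v := by
    rw [hrel]
    exact Ideal.mul_le_left.trans ((Ideal.span_singleton_le_iff_mem v).mpr hcv)
  rcases hv.mul_le.mp hle with h1 | h1
  · exact hbv v hv hrv ((Ideal.span_singleton_le_iff_mem v).mp h1)
  · exact hc v hv hrv h1

end Cop

/-! ### Norms have trivial Artin symbol -/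

section NormKer

variable {F M : Type} [Field F] [Field M] [NumberField F] [NumberField M] [Algebra F M]
  [IsGalois F M]

/-- The trivial map is the Artin map of `M / M`. -/
theorem isArt_one_self : IsArt M M (1 : (Ideal (𝓞 M))⁰ →* (M ≃ₐ[M] M)) := by
  intro P Q hP hQ hQP x
  have hQQ : (P : Ideal (𝓞 M)) = Q := by
    rw [← hQP]
    ext y
    exact Iff.rfl
  have hQ0 : Q ≠ ⊥ := by
    rw [← hQQ]
    exact nonZeroDivisors.coe_ne_zero P
  have hmax : Q.IsMaximal := hQ.isMaximal hQ0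
  have hfin : Finite (𝓞 M ⧸ Q) := Ideal.finiteQuotientOfFreeOfNeBot Q hQ0
  let _ := Ideal.Quotient.field Q
  let _ := Fintype.ofFinite (𝓞 M ⧸ Q)
  have h1 : (Ideal.Quotient.mk Q x) ^ Nat.card (𝓞 M ⧸ Q) = Ideal.Quotient.mk Q x := by
    rw [Nat.card_eq_fintype_card]
    exact FiniteField.pow_card _
  rw [hQP, hQQ, MonoidHom.one_apply, MulSemiringAction.toAlgHom_apply, one_smul,
    ← Ideal.Quotient.eq, map_pow, h1]

/-- The Artin symbol of the relative norm of an ideal of `M` is trivial. -/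
theorem art_eq_one_of_relNorm (hun : IsUnram F M) {art : (Ideal (𝓞 F))⁰ →* (M ≃ₐ[F] M)}
    (hart : IsArt F M art) (𝔄 : (Ideal (𝓞 M))⁰) (𝔟 : (Ideal (𝓞 F))⁰)
    (h : (𝔟 : Ideal (𝓞 F)) = Ideal.relNorm (𝓞 F) (𝔄 : Ideal (𝓞 M))) : art 𝔟 = 1 := by
  have key := Norm.normStmt F M M M hun art 1 hart isArt_one_self 𝔄 𝔟 h
  ext m
  have := key m
  simpa using this

/-- The Artin symbol of the principal ideal generated by a norm is trivial. -/
theorem art_spanNZ_intNorm (hun : IsUnram F M) {art : (Ideal (𝓞 F))⁰ →* (M ≃ₐ[F] M)}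
    (hart : IsArt F M art) (γ : 𝓞 M) (hn : Algebra.intNorm (𝓞 F) (𝓞 M) γ ≠ 0) :
    art (spanNZ (Algebra.intNorm (𝓞 F) (𝓞 M) γ) hn) = 1 := by
  have hγ : γ ≠ 0 := by
    rintro rfl
    exact hn (Algebra.intNorm_eq_zero.mpr rfl)
  exact art_eq_one_of_relNorm hun hart (spanNZ γ hγ) _ (Ideal.relNorm_singleton (𝓞 F) γ).symm

/-- **Strong cyclotomic hypothesis**: under `CycHyp` and residue norm surjectivity, the Artin
symbol of every principal ideal prime to `r` is trivial. -/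
theorem art_spanNZ_eq_one (hRN : ResNormInput) {p : ℕ} (hp : p.Prime)
    (hun : IsUnram F M) {art : (Ideal (𝓞 F))⁰ →* (M ≃ₐ[F] M)} (hart : IsArt F M art) {r : ℕ}
    (hr : r.Prime) (hcyc : CycHyp p art r) (x : 𝓞 F) (hx0 : x ≠ 0)
    (hx : ∀ v : Ideal (𝓞 F), v.IsPrime → (r : 𝓞 F) ∈ v → x ∉ v) :
    art (spanNZ x hx0) = 1 := by
  classical
  have hI : Ideal.span {(r : 𝓞 F)} ≠ ⊥ := by
    rw [Ne, Ideal.span_singleton_eq_bot]
    exact_mod_cast hr.ne_zero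
  let S : Finset (Ideal (𝓞 F)) :=
    (UniqueFactorizationMonoid.normalizedFactors (Ideal.span {(r : 𝓞 F)})).toFinset
  have hs : ∀ v : Ideal (𝓞 F), v ∈ S ↔ v.IsPrime ∧ (r : 𝓞 F) ∈ v := by
    intro v
    rw [Multiset.mem_toFinset, Ideal.mem_normalizedFactors_iff hI,
      Ideal.span_singleton_le_iff_mem]
  have hS : ∀ v ∈ S, v.IsPrime ∧ v ≠ ⊥ := by
    intro v hv
    refine ⟨((hs v).mp hv).1, ?_⟩
    rintro rfl
    have h1 : (r : 𝓞 F) = 0 := by simpa using ((hs ⊥).mp hv).2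
    exact hr.ne_zero (by exact_mod_cast h1)
  obtain ⟨γ, hγ⟩ := hRN F M hun S hS x (fun v hv => hx v ((hs v).mp hv).1 ((hs v).mp hv).2)
  set n := Algebra.intNorm (𝓞 F) (𝓞 M) γ with hn
  have hnx : ∀ v : Ideal (𝓞 F), v.IsPrime → (r : 𝓞 F) ∈ v → n - x ∈ v :=
    fun v hv hrv => hγ v ((hs v).mpr ⟨hv, hrv⟩)
  have hnv : ∀ v : Ideal (𝓞 F), v.IsPrime → (r : 𝓞 F) ∈ v → n ∉ v := by
    intro v hv hrv hnv
    apply hx v hv hrv
    have : x = n - (n - x) := by ring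
    rw [this]
    exact v.sub_mem hnv (hnx v hv hrv)
  obtain ⟨v₀, hv₀, hrv₀⟩ := exists_prime_natCast_mem' (F := F) hr
  have hn0 : n ≠ 0 := by
    intro h
    exact hnv v₀ hv₀ hrv₀ (h ▸ v₀.zero_mem)
  have hy0 : x * n ^ (p - 1) ≠ 0 := mul_ne_zero hx0 (pow_ne_zero _ hn0)
  have h1 := hcyc (x * n ^ (p - 1)) hy0 (fun v hv hrv => by
    refine ⟨fun hmem => ?_, n, ?_⟩
    · rcases hv.mem_or_mem hmem with h | h
      · exact hx v hv hrv h
      · exact hnv v hv hrv (hv.mem_of_pow_mem _ h)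
    · have : x * n ^ (p - 1) - n ^ p = -(n ^ (p - 1) * (n - x)) := by
        have hpp : n ^ p = n ^ (p - 1) * n := by
          rw [← pow_succ, Nat.sub_add_cancel hp.pos]
        rw [hpp]; ring
      rw [this]
      exact v.neg_mem (v.mul_mem_left _ (hnx v hv hrv)))
  have h2 : art (spanNZ (x * n ^ (p - 1)) hy0) = 1 := h1
  rw [spanNZ_mul x (n ^ (p - 1)) hx0 (pow_ne_zero _ hn0), spanNZ_pow n hn0, map_mul, map_pow,
    art_spanNZ_intNorm hun hart γ hn0, one_pow, mul_one] at h2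
  exact h2

/-- Under the strong cyclotomic hypothesis the Artin symbol of an ideal prime to `r` only
depends on its class. -/
theorem art_eq_of_mk0_eq {art : (Ideal (𝓞 F))⁰ →* (M ≃ₐ[F] M)} {r : ℕ} (hr : r.Prime)
    (hprin : ∀ (x : 𝓞 F) (hx0 : x ≠ 0),
      (∀ v : Ideal (𝓞 F), v.IsPrime → (r : 𝓞 F) ∈ v → x ∉ v) → art (spanNZ x hx0) = 1)
    (𝔟 𝔠 : (Ideal (𝓞 F))⁰) (hb : CopR r (𝔟 : Ideal (𝓞 F))) (hc : CopR r (𝔠 : Ideal (𝓞 F)))
    (h : ClassGroup.mk0 𝔟 = ClassGroup.mk0 𝔠) : art 𝔟 = art 𝔠 := by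
  obtain ⟨b, c, hbv, hcv, hrel⟩ := exists_coprime_relation 𝔟 𝔠 hb hc h
  obtain ⟨v₀, hv₀, hrv₀⟩ := exists_prime_natCast_mem' (F := F) hr
  have hb0 : b ≠ 0 := fun h0 => hbv v₀ hv₀ hrv₀ (h0 ▸ v₀.zero_mem)
  have hc0 : c ≠ 0 := fun h0 => hcv v₀ hv₀ hrv₀ (h0 ▸ v₀.zero_mem)
  have hrel' : spanNZ b hb0 * 𝔠 = spanNZ c hc0 * 𝔟 := Subtype.ext hrel
  have h1 := congrArg art hrel'
  rw [map_mul, map_mul, hprin b hb0 hbv, hprin c hc0 hcv, one_mul, one_mul] at h1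
  exact h1.symm

end NormKer

/-! ### The subgroup `N'` -/

section Away

variable (F M : Type) [Field F] [Field M] [NumberField F] [NumberField M] [Algebra F M]
  [IsGalois F M]

/-- The subgroup of the class group generated by the classes of the split primes not above `r`
and by the `p`-th powers. -/
def nmClassesAway (p r : ℕ) : Subgroup (ClassGroup (𝓞 F)) :=
  Subgroup.closure
    ({c | ∃ P : (Ideal (𝓞 F))⁰, (P : Ideal (𝓞 F)).IsPrime ∧ IsSplit F M P ∧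
        (r : 𝓞 F) ∉ (P : Ideal (𝓞 F)) ∧ c = ClassGroup.mk0 P} ∪
      {c | ∃ d : ClassGroup (𝓞 F), c = d ^ p})

variable {F M}

theorem nmClassesAway_le (p r : ℕ) : nmClassesAway F M p r ≤ nmClasses F M p := by
  apply Subgroup.closure_mono
  rintro c (⟨P, hP, hs, -, rfl⟩ | h)
  · exact Or.inl ⟨P, hP, hs, rfl⟩
  · exact Or.inr h

theorem pow_mem_nmClassesAway (p r : ℕ) (d : ClassGroup (𝓞 F)) :
    d ^ p ∈ nmClassesAway F M p r :=
  Subgroup.subset_closure (Or.inr ⟨d, rfl⟩)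

/-- Every class of `N'` is the class of an ideal prime to `r` with trivial Artin symbol. -/
theorem exists_rep_of_mem_nmClassesAway {p : ℕ} (hdeg : Module.finrank F M = p)
    (hun : IsUnram F M) {art : (Ideal (𝓞 F))⁰ →* (M ≃ₐ[F] M)} (hart : IsArt F M art) {r : ℕ}
    (hr : r.Prime) {c : ClassGroup (𝓞 F)} (h : c ∈ nmClassesAway F M p r) :
    ∃ 𝔫 : (Ideal (𝓞 F))⁰, ClassGroup.mk0 𝔫 = c ∧ art 𝔫 = 1 ∧ CopR r (𝔫 : Ideal (𝓞 F)) := by
  classical
  induction h using Subgroup.closure_induction with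
  | mem x hx =>
    rcases hx with ⟨P, hP, hs, hrP, rfl⟩ | ⟨d, rfl⟩
    · exact ⟨P, rfl, (art_eq_one_iff_isSplit hun hart P hP).2 hs,
        copR_of_prime hP (nonZeroDivisors.coe_ne_zero P) hrP⟩
    · have hI : Ideal.span {(r : 𝓞 F)} ≠ ⊥ := by
        rw [Ne, Ideal.span_singleton_eq_bot]
        exact_mod_cast hr.ne_zero
      obtain ⟨J, hJ, hJr⟩ := Fermat.Agent.Lib.ClassCoprime.exists_mk0_eq_coprime (𝓞 F) _ hI d
      refine ⟨J ^ p, by rw [map_pow, hJ], by rw [map_pow]; exact gal_pow_eq_one hdeg _, ?_⟩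
      rw [SubmonoidClass.coe_pow]
      exact (copR_of_sup_eq_top hJr).pow p
  | one => exact ⟨1, map_one _, map_one _, copR_one r⟩
  | mul x y _ _ hx hy =>
    obtain ⟨a, rfl, ha1, ha2⟩ := hx
    obtain ⟨b, rfl, hb1, hb2⟩ := hy
    exact ⟨a * b, map_mul _ _ _, by rw [map_mul, ha1, hb1, one_mul], ha2.mul hb2⟩
  | inv x _ hx =>
    obtain ⟨a, rfl, ha1, ha2⟩ := hx
    refine ⟨a ^ (Fintype.card (ClassGroup (𝓞 F)) - 1), ?_, by rw [map_pow, ha1, one_pow], ?_⟩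
    · rw [map_pow]
      have hc : 0 < Fintype.card (ClassGroup (𝓞 F)) := Fintype.card_pos
      apply eq_inv_of_mul_eq_one_left
      rw [← pow_succ, Nat.sub_add_cancel hc, pow_card_eq_one]
    · rw [SubmonoidClass.coe_pow]
      exact ha2.pow _

end Away

/-! ### The second inequality -/

/-- **`SIStmt p` from `ClassZetaStmt`** and the two leaves. -/
theorem siStmt_of_inputs (p : ℕ) (hCZ : ClassZetaStmt) (hRN : ResNormInput)
    (hSL : SplitLowerInput) : SIStmt p := by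
  intro hp h3 F M _ _ _ _ _ _ hζ hdeg hun art hart r hr hrp hcyc 𝔞 h𝔞 h1
  classical
  by_contra hnot
  have hc : ClassGroup.mk0 𝔞 ∉ nmClassesAway F M p r := fun h => hnot (nmClassesAway_le p r h)
  -- the strong cyclotomic hypothesis
  have hprin := art_spanNZ_eq_one hRN hp hun hart hr hcyc
  -- the density of the split primes
  have hT₀ : {Q : HeightOneSpectrum (𝓞 F) | (r : 𝓞 F) ∈ Q.asIdeal}.Finite :=
    MiniCheb.finite_setOf_natCast_mem hr.ne_zero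
  have hSplit : ∃ C : ℝ, ∀ s ∈ Set.Ioc (1 : ℝ) 2, ∃ T : Finset (HeightOneSpectrum (𝓞 F)),
      (∀ Q ∈ T, primeClass F Q ∈ nmClassesAway F M p r) ∧
      Real.log (1 / (s - 1)) - C ≤ (p : ℝ) * ∑ Q ∈ T, (Ideal.absNorm Q.asIdeal : ℝ) ^ (-s) := by
    obtain ⟨C, hC⟩ := hSL F M _ hT₀
    refine ⟨C, fun s hs => ?_⟩
    obtain ⟨T, hT, hsum⟩ := hC s hs
    refine ⟨T, fun Q hQ => ?_, by rwa [hdeg] at hsum⟩
    exact Subgroup.subset_closure (Or.inl
      ⟨⟨Q.asIdeal, mem_nonZeroDivisors_iff_ne_zero.mpr Q.ne_bot⟩, Q.isPrime, (hT Q hQ).2,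
        (hT Q hQ).1, rfl⟩)
  have hidx := exists_pow_mul_mem_of_sums F p hp (nmClassesAway F M p r)
    (pow_mem_nmClassesAway p r)
    (fun ψ hψ1 hψp => kernelSumUpper_of_classZeta hCZ F hp ψ hψ1 hψp)
    (MiniCheb.primeSumInput F).2.1 hSplit (ClassGroup.mk0 𝔞) hc
  -- a prime outside `r` with nontrivial symbol
  have hTfin : {v : Ideal (𝓞 F) | v.IsPrime ∧ (r : 𝓞 F) ∈ v}.Finite := by
    have hI : Ideal.span {(r : 𝓞 F)} ≠ ⊥ := by
      rw [Ne, Ideal.span_singleton_eq_bot]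
      exact_mod_cast hr.ne_zero
    refine ((UniqueFactorizationMonoid.normalizedFactors
      (Ideal.span {(r : 𝓞 F)})).toFinset.finite_toSet).subset (fun v hv => ?_)
    rw [Finset.mem_coe, Multiset.mem_toFinset, Ideal.mem_normalizedFactors_iff hI,
      Ideal.span_singleton_le_iff_mem]
    exact hv
  obtain ⟨P, hP, hPT, hPart⟩ := NSArt.nsStmt p hp F M hdeg hun art hart _ hTfin
  have hPr : (r : 𝓞 F) ∉ (P : Ideal (𝓞 F)) := fun h => hPT ⟨hP, h⟩
  obtain ⟨k, n, hn, hPk⟩ := hidx (ClassGroup.mk0 P)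
  obtain ⟨𝔫, h𝔫c, h𝔫art, h𝔫cop⟩ := exists_rep_of_mem_nmClassesAway hdeg hun hart hr hn
  have hclass : ClassGroup.mk0 P = ClassGroup.mk0 (𝔞 ^ k * 𝔫) := by
    rw [map_mul, map_pow, h𝔫c, hPk]
  have hcop𝔞 : CopR r (𝔞 : Ideal (𝓞 F)) := h𝔞
  have hcop : CopR r ((𝔞 ^ k * 𝔫 : (Ideal (𝓞 F))⁰) : Ideal (𝓞 F)) := by
    rw [Submonoid.coe_mul, SubmonoidClass.coe_pow]
    exact (hcop𝔞.pow k).mul h𝔫cop
  have hfin := art_eq_of_mk0_eq hr hprin P (𝔞 ^ k * 𝔫)
    (copR_of_prime hP (nonZeroDivisors.coe_ne_zero P) hPr) hcop hclass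
  rw [map_mul, map_pow, h1, one_pow, h𝔫art, one_mul] at hfin
  exact hPart hfin

end Fermat.Agent.S14.Artin.SIAn
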