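/-
S14, Route A, [SI-analytic] leaf (L2) (helper85, for helper20's `SIAn`): the completely split
primes of a Galois extension `M / F` of number fields, outside a finite set, reach
`log (1 / (s - 1)) - O(1)` after multiplication by `[M : F]`.

Proof: `MiniCheb.primeSumLower M` gives the primes of `M`; those of non-prime absolute norm are
negligible (`MiniCheb.negligible_not_prime M`), those over the finite set `T₀` are finitely many;
a remaining prime `𝔔` has the residue field of the prime `Q` below it, hence so have all its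
conjugates, i.e. `Q` splits completely; at most `[M : F]` primes of `M` lie over each `Q`.
-/
import Mathlib
import Fermat.Agent.S14.Artin.Plan
import Fermat.Agent.S14.Thaine.MiniChebInputs

set_option autoImplicit false
set_option linter.style.haveILetI false

open scoped NumberField nonZeroDivisors Pointwise
open IsDedekindDomain Fermat.Agent.S14.Artin Fermat.Agent.S14.Thaine.Density

namespace Fermat.Agent.S14.Artin.SIAn

namespace SplitLower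

variable {F M : Type} [Field F] [Field M] [NumberField F] [NumberField M] [Algebra F M]

/-- A prime of `M` of prime absolute norm has the same norm as the prime of `F` below it. -/
theorem absNorm_under_eq_of_prime (𝔔 : Ideal (𝓞 M)) [𝔔.IsPrime]
    (h : (Ideal.absNorm 𝔔).Prime) : Ideal.absNorm (𝔔.under (𝓞 F)) = Ideal.absNorm 𝔔 := by
  have hinj : Function.Injective
      (Ideal.quotientMap 𝔔 (algebraMap (𝓞 F) (𝓞 M)) (le_refl (𝔔.under (𝓞 F)))) :=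
    Ideal.quotientMap_injective
  have hdvd : Nat.card (𝓞 F ⧸ 𝔔.under (𝓞 F)) ∣ Nat.card (𝓞 M ⧸ 𝔔) := by
    have := AddSubgroup.card_dvd_of_injective
      ((Ideal.quotientMap 𝔔 (algebraMap (𝓞 F) (𝓞 M)) (le_refl (𝔔.under (𝓞 F)))).toAddMonoidHom)
      hinj
    exact this
  have h1 : Ideal.absNorm (𝔔.under (𝓞 F)) ∣ Ideal.absNorm 𝔔 := by
    rw [Ideal.absNorm_apply, Ideal.absNorm_apply]
    exact hdvd
  rcases (Nat.dvd_prime h).mp h1 with h2 | h2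
  · exfalso
    rw [Ideal.absNorm_eq_one_iff] at h2
    exact (Ideal.IsPrime.under (𝓞 F) 𝔔).ne_top h2
  · exact h2


/-- The identity is a Frobenius at a nonzero prime whose residue field is that of the prime
below. -/
theorem isArithFrobAt_one_of_absNorm_eq [IsGalois F M] (𝔔 : Ideal (𝓞 M)) [𝔔.IsPrime]
    (h0 : 𝔔 ≠ ⊥) (h : Ideal.absNorm (𝔔.under (𝓞 F)) = Ideal.absNorm 𝔔) :
    IsArithFrobAt (𝓞 F) (1 : M ≃ₐ[F] M) 𝔔 := by
  intro x
  have hmax : 𝔔.IsMaximal := Ring.DimensionLEOne.maximalOfPrime h0 inferInstance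
  letI : Field (𝓞 M ⧸ 𝔔) := Ideal.Quotient.field 𝔔
  haveI : Finite (𝓞 M ⧸ 𝔔) := Ideal.finiteQuotientOfFreeOfNeBot 𝔔 h0
  letI : Fintype (𝓞 M ⧸ 𝔔) := Fintype.ofFinite _
  have e1 : Ideal.absNorm (𝔔.under (𝓞 F)) = Nat.card (𝓞 F ⧸ 𝔔.under (𝓞 F)) := by
    rw [Ideal.absNorm_apply, Submodule.cardQuot_apply]
  have e2 : Ideal.absNorm 𝔔 = Nat.card (𝓞 M ⧸ 𝔔) := by
    rw [Ideal.absNorm_apply, Submodule.cardQuot_apply]
  have hc : Nat.card (𝓞 F ⧸ 𝔔.under (𝓞 F)) = Fintype.card (𝓞 M ⧸ 𝔔) := by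
    rw [← e1, h, e2, Nat.card_eq_fintype_card]
  rw [hc]
  have h1 : MulSemiringAction.toAlgHom (𝓞 F) (𝓞 M) (1 : M ≃ₐ[F] M) x = x := by
    simp
  rw [h1, ← Ideal.Quotient.eq_zero_iff_mem, map_sub, map_pow, FiniteField.pow_card, sub_self]

/-- A prime of `F` below a prime of `M` of prime absolute norm splits completely. -/
theorem isSplit_under_of_prime [IsGalois F M] (𝔔 : Ideal (𝓞 M)) [𝔔.IsPrime] (h0 : 𝔔 ≠ ⊥)
    (h : Ideal.absNorm (𝔔.under (𝓞 F)) = Ideal.absNorm 𝔔) :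
    IsSplit F M (𝔔.under (𝓞 F)) := by
  intro Q' hQ' hQ'u
  haveI := hQ'
  obtain ⟨τ, hτ⟩ := Algebra.IsInvariant.exists_smul_of_under_eq (𝓞 F) (𝓞 M) (M ≃ₐ[F] M) 𝔔 Q'
    hQ'u.symm
  have h2 := (isArithFrobAt_one_of_absNorm_eq 𝔔 h0 h).conj τ
  rw [← hτ] at h2
  simpa using h2


/-- At most `[M : F]` primes of a finite set of primes of `M` lie over a given prime of `F`. -/
theorem card_filter_under_le [IsGalois F M] (T : Finset (HeightOneSpectrum (𝓞 M)))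
    (Q : HeightOneSpectrum (𝓞 F)) [DecidablePred fun 𝔔 : HeightOneSpectrum (𝓞 M) =>
      HeightOneSpectrum.under (𝓞 F) 𝔔 = Q] :
    (T.filter (fun 𝔔 => HeightOneSpectrum.under (𝓞 F) 𝔔 = Q)).card ≤ Module.finrank F M := by
  classical
  rcases (T.filter (fun 𝔔 => HeightOneSpectrum.under (𝓞 F) 𝔔 = Q)).eq_empty_or_nonempty with
    h | ⟨𝔔₀, h𝔔₀⟩
  · rw [h]
    simp
  · have hex : ∀ 𝔔 ∈ T.filter (fun 𝔔 => HeightOneSpectrum.under (𝓞 F) 𝔔 = Q),
        ∃ σ : M ≃ₐ[F] M, 𝔔.asIdeal = σ • 𝔔₀.asIdeal := by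
      intro 𝔔 h𝔔
      haveI := 𝔔.isPrime
      haveI := 𝔔₀.isPrime
      have hu : 𝔔₀.asIdeal.under (𝓞 F) = 𝔔.asIdeal.under (𝓞 F) := by
        have h1 := (Finset.mem_filter.mp h𝔔₀).2
        have h2 := (Finset.mem_filter.mp h𝔔).2
        exact congrArg HeightOneSpectrum.asIdeal (h1.trans h2.symm)
      exact Algebra.IsInvariant.exists_smul_of_under_eq (𝓞 F) (𝓞 M) (M ≃ₐ[F] M)
        𝔔₀.asIdeal 𝔔.asIdeal hu
    choose! σ hσ using hex
    rw [← IsGalois.card_aut_eq_finrank F M, Nat.card_eq_fintype_card, ← Finset.card_univ]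
    refine Finset.card_le_card_of_injOn σ (fun _ _ => Finset.mem_univ _) ?_
    intro 𝔔 h𝔔 𝔔' h𝔔' hσσ
    apply HeightOneSpectrum.ext
    rw [hσ 𝔔 h𝔔, hσ 𝔔' h𝔔', hσσ]

omit [NumberField F] in
/-- The primes of `M` over a finite set of primes of `F` form a finite set. -/
theorem finite_under_mem (T₀ : Set (HeightOneSpectrum (𝓞 F))) (hT₀ : T₀.Finite) :
    {𝔔 : HeightOneSpectrum (𝓞 M) | HeightOneSpectrum.under (𝓞 F) 𝔔 ∈ T₀}.Finite := by
  have hU : {𝔔 : HeightOneSpectrum (𝓞 M) | HeightOneSpectrum.under (𝓞 F) 𝔔 ∈ T₀} =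
      ⋃ Q ∈ T₀, {𝔔 : HeightOneSpectrum (𝓞 M) | HeightOneSpectrum.under (𝓞 F) 𝔔 = Q} := by
    ext 𝔔
    simp
  rw [hU]
  refine hT₀.biUnion (fun Q _ => ?_)
  have h0 : Ideal.map (algebraMap (𝓞 F) (𝓞 M)) Q.asIdeal ≠ 0 := by
    rw [Ne, Ideal.zero_eq_bot,
      Ideal.map_eq_bot_iff_of_injective (FaithfulSMul.algebraMap_injective (𝓞 F) (𝓞 M))]
    exact Q.ne_bot
  refine (Ideal.finite_factors h0).subset (fun 𝔔 h𝔔 => ?_)
  have h1 : 𝔔.asIdeal.under (𝓞 F) = Q.asIdeal := congrArg HeightOneSpectrum.asIdeal h𝔔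
  show 𝔔.asIdeal ∣ _
  rw [Ideal.dvd_iff_le, Ideal.map_le_iff_le_comap, ← h1]

end SplitLower

open SplitLower

/-- **(L2)** The completely split primes of a Galois extension `M / F` of number fields outside
a finite set have lower Dirichlet density at least `1 / [M : F]`, in prime-sum form. -/
theorem exists_split_sum_lower (F M : Type) [Field F] [Field M] [NumberField F] [NumberField M]
    [Algebra F M] [IsGalois F M] (T₀ : Set (HeightOneSpectrum (𝓞 F))) (hT₀ : T₀.Finite) :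
    ∃ C : ℝ, ∀ s ∈ Set.Ioc (1 : ℝ) 2, ∃ T : Finset (HeightOneSpectrum (𝓞 F)),
      (∀ Q ∈ T, Q ∉ T₀ ∧ IsSplit F M Q.asIdeal) ∧
      Real.log (1 / (s - 1)) - C ≤
        (Module.finrank F M : ℝ) * ∑ Q ∈ T, (Ideal.absNorm Q.asIdeal : ℝ) ^ (-s) := by
  classical
  obtain ⟨C₁, hC₁⟩ := Fermat.Agent.S14.Thaine.MiniCheb.primeSumLower M
  set E : Set (HeightOneSpectrum (𝓞 M)) :=
    {𝔔 | ¬ (Ideal.absNorm 𝔔.asIdeal).Prime} ∪
      {𝔔 | HeightOneSpectrum.under (𝓞 F) 𝔔 ∈ T₀} with hE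
  have hneg : Negligible M E :=
    (Fermat.Agent.S14.Thaine.MiniCheb.negligible_not_prime M).union
      (Negligible.of_finite (finite_under_mem T₀ hT₀))
  obtain ⟨B, hB⟩ := hneg
  refine ⟨C₁ + B, fun s hs => ?_⟩
  obtain ⟨TM, hTM⟩ := hC₁ s hs
  set Tg := TM.filter (fun 𝔔 => 𝔔 ∉ E) with hTg
  set Tb := TM.filter (fun 𝔔 => 𝔔 ∈ E) with hTb
  have hgoodmem : ∀ 𝔔 ∈ Tg, (Ideal.absNorm 𝔔.asIdeal).Prime ∧
      HeightOneSpectrum.under (𝓞 F) 𝔔 ∉ T₀ := by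
    intro 𝔔 h𝔔
    have h𝔔E : 𝔔 ∉ E := (Finset.mem_filter.mp h𝔔).2
    refine ⟨?_, fun h => h𝔔E (Or.inr h)⟩
    by_contra h
    exact h𝔔E (Or.inl h)
  refine ⟨Tg.image (HeightOneSpectrum.under (𝓞 F)), ?_, ?_⟩
  · intro Q hQ
    obtain ⟨𝔔, h𝔔, rfl⟩ := Finset.mem_image.mp hQ
    haveI := 𝔔.isPrime
    exact ⟨(hgoodmem 𝔔 h𝔔).2, isSplit_under_of_prime 𝔔.asIdeal 𝔔.ne_bot
      (absNorm_under_eq_of_prime 𝔔.asIdeal (hgoodmem 𝔔 h𝔔).1)⟩
  · have hsplit : ∑ 𝔔 ∈ TM, (Ideal.absNorm 𝔔.asIdeal : ℝ) ^ (-s) =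
        ∑ 𝔔 ∈ Tb, (Ideal.absNorm 𝔔.asIdeal : ℝ) ^ (-s) +
          ∑ 𝔔 ∈ Tg, (Ideal.absNorm 𝔔.asIdeal : ℝ) ^ (-s) := by
      rw [hTb, hTg, Finset.sum_filter_add_sum_filter_not]
    have hbad : ∑ 𝔔 ∈ Tb, (Ideal.absNorm 𝔔.asIdeal : ℝ) ^ (-s) ≤ B :=
      (Finset.sum_le_sum (fun 𝔔 _ => rpow_neg_le_inv 𝔔 hs.1.le)).trans
        (hB Tb (fun 𝔔 h𝔔 => (Finset.mem_filter.mp h𝔔).2))
    have hgood : ∑ 𝔔 ∈ Tg, (Ideal.absNorm 𝔔.asIdeal : ℝ) ^ (-s) ≤
        (Module.finrank F M : ℝ) * ∑ Q ∈ Tg.image (HeightOneSpectrum.under (𝓞 F)),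
          (Ideal.absNorm Q.asIdeal : ℝ) ^ (-s) := by
      rw [← Finset.sum_fiberwise_of_maps_to (g := HeightOneSpectrum.under (𝓞 F))
        (t := Tg.image (HeightOneSpectrum.under (𝓞 F)))
        (fun 𝔔 h => Finset.mem_image_of_mem _ h), Finset.mul_sum]
      refine Finset.sum_le_sum (fun Q _ => ?_)
      have h1 : ∀ 𝔔 ∈ Tg.filter (fun 𝔔 => HeightOneSpectrum.under (𝓞 F) 𝔔 = Q),
          (Ideal.absNorm 𝔔.asIdeal : ℝ) ^ (-s) = (Ideal.absNorm Q.asIdeal : ℝ) ^ (-s) := by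
        intro 𝔔 h𝔔
        obtain ⟨h𝔔g, rfl⟩ := Finset.mem_filter.mp h𝔔
        haveI := 𝔔.isPrime
        rw [← absNorm_under_eq_of_prime (F := F) 𝔔.asIdeal (hgoodmem 𝔔 h𝔔g).1]
        rfl
      rw [Finset.sum_congr rfl h1, Finset.sum_const, nsmul_eq_mul]
      exact mul_le_mul_of_nonneg_right (by exact_mod_cast card_filter_under_le Tg Q)
        (rpow_neg_nonneg Q s)
    linarith

end Fermat.Agent.S14.Artin.SIAn
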