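/-
S14, Route A, analytic provider of the second inequality (helper20): the UNCONDITIONAL
`SIStmt p` and `CycKerStmt p`.

`SIAn/Core.lean` proves `SIStmt p` from `ClassZetaStmt` and two leaves; here the three inputs are
discharged:
* `ClassZetaStmt`   : `Lib/ClassZetaAbel.lean` (helper28);
* `ResNormInput`    : `Lib/ResidueNorm.lean` (helper31);
* `SplitLowerInput` : `SIAn/SplitLower.lean` (helper85).
-/
import Mathlib
import Fermat.Agent.S14.Artin.SIAn.Core
import Fermat.Agent.S14.Artin.SIAn.SplitLower
import Fermat.Agent.S14.Artin.CycKerPlan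
import Fermat.Agent.S14.Artin.CR
import Fermat.Agent.Lib.ResidueNorm
import Fermat.Agent.Lib.ClassZetaAbel

set_option autoImplicit false

open scoped NumberField nonZeroDivisors
open IsDedekindDomain

namespace Fermat.Agent.S14.Artin.SIAn

open Fermat.Agent.S14.Artin

/-- (L1) holds. -/
theorem resNormInput : ResNormInput := by
  intro F M _ _ _ _ _ _ hun S hS x hx
  exact Fermat.Agent.Lib.ResidueNorm.exists_intNorm_sub_mem F M hun S hS x hx

/-- (L2) holds. -/
theorem splitLowerInput : SplitLowerInput := by
  intro F M _ _ _ _ _ _ T₀ hT₀
  exact exists_split_sum_lower F M T₀ hT₀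

/-- **The second inequality, `SIStmt p`** (Route A, Plan contract, verbatim), unconditionally:
for a degree `p` unramified Galois extension `M / F` of number fields with `ζ_p ∈ F`, with an
"Artin map" `art` on ideals prime to `r` that is trivial on the cyclotomically trivial principal
ideals, the kernel of `art` consists of the norm classes. -/
theorem siStmt (p : ℕ) : SIStmt p :=
  siStmt_of_inputs p Fermat.Agent.Lib.ClassZetaAbel.classZetaStmt resNormInput splitLowerInput

/-- **The cyclotomic-kernel statement `CycKerStmt p`** (= `CRStmt p` ∘ `SIStmt p`),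
unconditionally. -/
theorem cycKerStmt (p : ℕ) : CycKerStmt p :=
  cycKerStmt_of_cr_si p (Fermat.Agent.S14.Artin.CR.crStmt p) (siStmt p)

end Fermat.Agent.S14.Artin.SIAn
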